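import Fermat.Agent.S32.OfES
import Fermat.Agent.GAL.ALG.CycloFrob
import Fermat.Agent.GAL.ALG.Cyclo

/-!
# S33 / Glue / Datum : the abstract datum over `ℤ_p` attached to an Eichler--Shimura datum and a Hecke valued representation

Copy of `S32.algDatum` with `𝒪 := ℤ_p`, `AO := D.ρ`, `ε := cyclo p`.
-/

set_option autoImplicit false

namespace Fermat.Agent.S33.Glue

open Fermat.Agent.GAL Fermat.Agent.S32 CuspForm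

variable {p N M : ℕ} [NeZero N] [Fact p.Prime] {S : Finset ℕ}
  {T : Type} [CommRing T] [IsLocalRing T] [Algebra ℤ_[p] T]

theorem pow_dvd_mem_maximalIdeal_pow {a : ℤ_[p]} {n : ℕ} (h : (p : ℤ_[p]) ^ n ∣ a) :
    a ∈ IsLocalRing.maximalIdeal ℤ_[p] ^ n := by
  rw [PadicInt.maximalIdeal_eq_span_p, Ideal.span_singleton_pow, Ideal.mem_span_singleton]
  exact h

/-- The abstract datum over `ℤ_p`. -/
noncomputable def algDatumZp (D : ESDatumAt N M p) (hM : M ≠ 0) (hpS : p ∈ S)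
    (hNS : ∀ q : ℕ, q.Prime → q ∣ N → q ∈ S)
    (π : CuspForm.heckeAlgebra N 2 (↑S : Set ℕ) →+* T) (ρ : GaloisRepAdic T)
    (hchar : ∀ (ℓ : ℕ) (hℓ : ℓ.Prime) (hℓN : ¬ ℓ ∣ N) (hℓS : ℓ ∉ (↑S : Set ℕ)),
      ∀ A : ValuationSubring (AlgebraicClosure ℚ), A.LiesOverPrime ℓ →
        ∀ σ : AlgebraicClosure ℚ ≃ₐ[ℚ] AlgebraicClosure ℚ, A.IsFrobeniusAt σ ℓ →
          LinearMap.charpoly (ρ.ρ σ) = Polynomial.X ^ 2
            - Polynomial.C (π (heckeAlgebra.T hℓ hℓN hℓS)) * Polynomial.X + Polynomial.C ((ℓ : T)))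
    (habs : ρ.residual.IsAbsolutelyIrreducible)
    {C : Type} [CommRing C]
    (Φ : C →+* Matrix (Fin D.r) (Fin D.r) ℤ) (Ψ : C →+* CuspForm.heckeAlgebra N 2 (↑S : Set ℕ))
    (hΦ : Function.Injective Φ)
    (hcomm : ∀ (x : C) (σ : GQ), D.ρ σ * (Φ x).map (Int.castRingHom ℤ_[p]) =
        (Φ x).map (Int.castRingHom ℤ_[p]) * D.ρ σ)
    (hX : ∀ (ℓ : ℕ) (hℓ : ℓ.Prime) (hℓN : ¬ ℓ ∣ N) (hℓS : ℓ ∉ (↑S : Set ℕ)), ¬ ℓ ∣ M →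
        ∃ x : C, Φ x = D.T ℓ ∧ Ψ x = CuspForm.heckeAlgebra.T hℓ hℓN hℓS) : AlgDatum ℤ_[p] T where
  r := D.r
  C := C
  Φ := Φ
  Φ_inj := hΦ
  ψ := π.comp Ψ
  AO := D.ρ
  AO_comm := fun c σ => (hcomm c σ).symm
  AO_cont := fun n => by
    obtain ⟨F, hF, h⟩ := D.ρ_cont n
    exact ⟨F, hF, fun σ hσ i j => pow_dvd_mem_maximalIdeal_pow (h σ hσ i j)⟩
  ε := cyclo p
  ε_cont := fun n => by
    obtain ⟨F, hF, h⟩ := cyclo_cont p n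
    exact ⟨F, hF, fun σ hσ => pow_dvd_mem_maximalIdeal_pow (h σ hσ)⟩
  B := S ∪ M.primeFactors
  X := esX D Φ Ψ hX
  ε_frob := fun ℓ hℓ hℓB A hA σ hσ =>
    cyclo_frobenius p hℓ (es_not_dvd hM hpS hNS hℓ hℓB).2.2.2.2 A hA σ hσ
  AO_ES := fun ℓ hℓ hℓB A hA σ hσ => by
    obtain ⟨h1, h2, h3, h4, _⟩ := es_not_dvd hM hpS hNS hℓ hℓB
    rw [(esX_spec D Φ Ψ hX hℓ h1 h2 h3).1]
    exact D.ρ_ES ℓ hℓ h4 A hA σ hσ
  ρ := ρ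
  ρ_char := fun ℓ hℓ hℓB A hA σ hσ => by
    obtain ⟨h1, h2, h3, _, _⟩ := es_not_dvd hM hpS hNS hℓ hℓB
    rw [hchar ℓ hℓ h1 h2 A hA σ hσ, RingHom.comp_apply, (esX_spec D Φ Ψ hX hℓ h1 h2 h3).2]
  ρ_absIrr := habs

end Fermat.Agent.S33.Glue
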