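import Fermat.Agent.S33.Contract
import Fermat.Agent.S32.TowerFlat
import Fermat.Agent.DR.Hecke.Degen

/-!
# S33 / Glue / Tower : the Eichler--Shimura datum at the neat level `(4 N') p`, `N = N' p`, with `OrdLevel` at all finite levels
-/

set_option autoImplicit false

namespace Fermat.Agent.S33

open Fermat.Agent.GAL Fermat.Agent.S24 Fermat.Agent.S32 Fermat.Agent.DR ModularCurve AlgebraicCurve
open Fermat.Agent.S19 (IsFunFlat)

/-- an equivariant additive map sends `(I - 1) X` into `(I - 1) Y`. -/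
theorem map_mem_augG {X Y : Type*} [AddCommGroup X] [DistribMulAction GQ X] [AddCommGroup Y]
    [DistribMulAction GQ Y] (I : Subgroup GQ) (f : X →+ Y) (hf : ∀ (σ : GQ) (x : X), f (σ • x) = σ • f x)
    {x : X} (hx : x ∈ augG I (⊤ : AddSubgroup X)) : f x ∈ augG I (⊤ : AddSubgroup Y) := by
  induction hx using AddSubgroup.closure_induction with
  | mem y hy =>
    obtain ⟨τ, hτ, z, -, rfl⟩ := hy
    rw [map_sub, hf]
    exact AddSubgroup.subset_closure ⟨τ, hτ, f z, AddSubgroup.mem_top _, rfl⟩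
  | zero => rw [map_zero]; exact AddSubgroup.zero_mem _
  | add a b _ _ ha hb => rw [map_add]; exact AddSubgroup.add_mem _ ha hb
  | neg a _ ha => rw [map_neg]; exact AddSubgroup.neg_mem _ ha

theorem ordLevel_of {N M p : ℕ} [NeZero N] [Fact p.Prime] (D : ESDatumAt N M p) (K : ℕ)
    (P : ValuationSubring (AlgebraicClosure ℚ)) {Q : Type} [AddCommGroup Q] [DistribMulAction GQ Q]
    (φ : ModRep D.ρ K →+ Q) (hfin : Finite Q) (htors : ∀ y : Q, p ^ K • y = 0) (h1 : IsFunFlat p Q) (h2 : ∀ (σ : GQ) (x : ModRep D.ρ K), φ (σ • x) = σ • φ x)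
    (h3 : ∀ (ℓ : ℕ) (x : Fin D.r → ZMod (p ^ K)), φ (ModRep.of D.ρ K x) = 0 →
      φ (ModRep.of D.ρ K (((D.T ℓ).map (Int.castRingHom (ZMod (p ^ K)))).mulVec x)) = 0)
    (h4 : ∀ x : ModRep D.ρ K, φ x = 0 →
      x ∈ augG (P.inertiaSubgroupIn ℚ) (⊤ : AddSubgroup (ModRep D.ρ K)) →
      ∀ τ ∈ P.inertiaSubgroupIn ℚ, ∀ a : ℕ,
        (∀ μ : AlgebraicClosure ℚ, μ ^ p ^ K = 1 → τ μ = μ ^ a) → τ • x = a • x) : OrdLevel D K P :=
  ⟨Q, inferInstance, inferInstance, φ, hfin, htors, h1, h2, h3, h4⟩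

theorem exists_esDatumAt_ord (hS19 : S19Statement) (hgeo : KVNewOrdNeat) (N p : ℕ) [NeZero N]
    [Fact p.Prime] (hp2 : p ≠ 2) (hN : p ∣ N ∧ ¬ p ^ 2 ∣ N) :
    ∃ (M : ℕ) (_ : M ≠ 0) (D : ESDatumAt N M p),
      ∀ (K : ℕ) (P : ValuationSubring (AlgebraicClosure ℚ)), P.LiesOverPrime p → OrdLevel D K P := by
  have hp : p.Prime := Fact.out
  obtain ⟨⟨N', rfl⟩, hN2⟩ := hN
  have hN'0 : N' ≠ 0 := by
    rintro rfl
    exact NeZero.ne (p * 0) (mul_zero p)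
  have hpN' : ¬ p ∣ N' := by
    rintro ⟨c, rfl⟩
    exact hN2 ⟨c, by ring⟩
  haveI : NeZero p := ⟨hp.ne_zero⟩
  haveI : NeZero (4 * N') := ⟨mul_ne_zero (by norm_num) hN'0⟩
  have hpM : ¬ p ∣ 4 * N' := by
    intro h
    rcases (Nat.Prime.dvd_mul hp).mp h with h | h
    · have h4 : p ∣ 2 ^ 2 := by norm_num; exact h
      exact hp2 ((Nat.prime_dvd_prime_iff_eq hp Nat.prime_two).mp (hp.dvd_of_dvd_pow h4))
    · exact hpN' h
  have hdvd : p * N' ∣ 4 * N' * p := ⟨4, by ring⟩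
  obtain ⟨Dt⟩ := Tors.nonempty_torsDatum' (4 * N' * p)
  have hinj := injAt_of_neat (4 * N' * p) p (Or.inl ⟨N' * p, by ring⟩)
  let tw : TorsionTower (4 * N' * p) (4 * N' * p) p :=
    torsionTower dvd_rfl Dt (kvUnramified_of_injAt _ p hinj) (kvFrobRel_of_injAt _ p hinj)
  have hdeg := Hecke.kvDegen (M := 4 * N') (q := p) hp hpM
  let D : ESDatumAt (p * N') (4 * N' * p) p := tw.toESDatumAt.ofDvd hdvd
  refine ⟨4 * N' * p, NeZero.ne _, D, fun K P hP => ?_⟩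
  let e : ModRep D.ρ K ≃+ KV Kbar (FN (4 * N' * p)) (p ^ K) := (ModRep.of tw.rho K).symm.trans (tw.e K)
  have he : ∀ (σ : GQ) (x : ModRep D.ρ K), e (σ • x) = σ • e x := fun σ x => tw.rho_spec K σ x
  let φ : ModRep D.ρ K →+ KV Kbar (FN (4 * N')) (p ^ K) × KV Kbar (FN (4 * N')) (p ^ K) :=
    ((alphaKV (4 * N') p (p ^ K)).prod ((alphaKV (4 * N') p (p ^ K)).comp (wKV (4 * N') p (p ^ K)))).comp
      e.toAddMonoidHom
  have hφ : ∀ x, φ x = (alphaKV (4 * N') p (p ^ K) (e x),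
      alphaKV (4 * N') p (p ^ K) (wKV (4 * N') p (p ^ K) (e x))) := fun x => rfl
  obtain ⟨Dt'⟩ := Tors.nonempty_torsDatum' (4 * N')
  have hfin : Finite (KV Kbar (FN (4 * N')) (p ^ K)) := Finite.of_equiv _ (Dt'.e (p ^ K)).toEquiv
  have htors : ∀ y : KV Kbar (FN (4 * N')) (p ^ K), p ^ K • y = 0 := by
    intro y
    obtain ⟨x, rfl⟩ := (Dt'.e (p ^ K)).surjective y
    rw [← map_nsmul]
    have : p ^ K • x = 0 := by
      ext i
      simp
    rw [this, map_zero]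
  refine ordLevel_of D K P φ inferInstance (fun y => Prod.ext (htors y.1) (htors y.2)) ?_ ?_ ?_ ?_
  · exact (isFunFlat_KV hS19 (4 * N') p hpM K).prod (isFunFlat_KV hS19 (4 * N') p hpM K)
  · intro σ x
    rw [hφ, hφ, he, hdeg.w_galois, hdeg.alpha_galois, hdeg.alpha_galois]
    rfl
  · intro ℓ x hx
    rw [hφ, Prod.mk_eq_zero] at hx
    by_cases hℓ : ℓ.Prime ∧ ¬ ℓ ∣ 4 * N' * p
    · haveI : NeZero ℓ := ⟨hℓ.1.ne_zero⟩
      have hT : D.T ℓ = tw.T ℓ := if_pos hℓ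
      have h1 : e (ModRep.of D.ρ K (((D.T ℓ).map (Int.castRingHom (ZMod (p ^ K)))).mulVec x)) =
          heckeT Kbar (4 * N' * p) ℓ (p ^ K) (e (ModRep.of D.ρ K x)) := by
        rw [hT, ← heckeTtot_eq]
        exact tw.e_T K ℓ hℓ.1 hℓ.2 x
      rw [hφ, h1, hdeg.w_hecke _ ℓ hℓ.1 hℓ.2, hdeg.alpha_hecke _ ℓ hℓ.1 hℓ.2,
        hdeg.alpha_hecke _ ℓ hℓ.1 hℓ.2, hx.1, hx.2, map_zero]
      rfl
    · have hT : D.T ℓ = 0 := if_neg hℓ
      rw [hT]
      have : ((0 : Matrix (Fin D.r) (Fin D.r) ℤ).map (Int.castRingHom (ZMod (p ^ K)))).mulVec x = 0 := by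
        ext i
        simp [Matrix.mulVec, dotProduct]
      rw [this, map_zero, map_zero]
  · intro x hx hxa τ hτ a ha
    rw [hφ, Prod.mk_eq_zero] at hx
    have h1 := hgeo (4 * N') p hp hp2 hpM (dvd_mul_right 4 N') K P hP (e x) hx.1 hx.2
      (map_mem_augG _ e.toAddMonoidHom he hxa) τ hτ a ha
    apply e.injective
    rw [he, h1, map_nsmul]

end Fermat.Agent.S33
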