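import Fermat.Agent.S33.Glue.Line
import Fermat.Agent.S33.Glue.Datum
import Fermat.Agent.S33.Glue.Tower
import Fermat.Agent.S33.Inst.Finite
import Fermat.Agent.S33.Inst.OrdRes
import Fermat.Agent.S33.Inst.NE
import Fermat.Agent.S32.Bridge
import Fermat.Agent.GAL.ALG.PadicMap
import Fermat.Agent.Lib.FrobDensity.GALInterface

/-!
# S33 / Glue / Final : the statement S33 from the geometric contract `KVNewOrdNeat` and the statement S19
-/

set_option autoImplicit false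

namespace Fermat.Agent.S33.Glue

open Fermat.Agent.GAL Fermat.Agent.S32 Fermat.Agent.S33.Alg CuspForm
open scoped TensorProduct

variable {p N M : ℕ} [NeZero N] [Fact p.Prime] {S : Finset ℕ}
  {𝒪 : Type} [CommRing 𝒪] [IsDomain 𝒪] [IsDiscreteValuationRing 𝒪]
  [IsAdicComplete (IsLocalRing.maximalIdeal 𝒪) 𝒪]
  {θ : CuspForm.heckeAlgebra N 2 (↑S : Set ℕ) →+* IsLocalRing.ResidueField 𝒪}
  {T : Type} [CommRing T] [IsLocalRing T] [IsNoetherianRing T]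
  [IsAdicComplete (IsLocalRing.maximalIdeal T) T] [Algebra 𝒪 T] [IsLocalHom (algebraMap 𝒪 T)]
  [Module.Finite 𝒪 T] [Module.Free 𝒪 T]

/-- Ordinarity at `p` from the finite levels of an Eichler--Shimura datum. -/
theorem isOrdinaryAt_of_ordLevel (hFD : FrobeniusDensity) (D : ESDatumAt N M p)
    (hM : M ≠ 0) (hp2 : p ≠ 2)
    (hlev : ∀ (K : ℕ) (P : ValuationSubring (AlgebraicClosure ℚ)), P.LiesOverPrime p → OrdLevel D K P)
    [Finite (IsLocalRing.ResidueField 𝒪)] [CharZero 𝒪]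
    (hp𝒪 : (p : 𝒪) ∈ IsLocalRing.maximalIdeal 𝒪) (hpS : p ∈ S)
    (hNS : ∀ q : ℕ, q.Prime → q ∣ N → q ∈ S)
    (H : CuspForm.HeckeGaloisRepDatum N (↑S : Set ℕ) 𝒪 θ T)
    (hres : (GaloisRepAdic.ofResidualGaloisRep H.ρ.residual).IsOrdinaryAt p) :
    H.ρ.IsOrdinaryAt p := by
  obtain ⟨ι⟩ := exists_padicInt_ringHom p 𝒪 hp𝒪
  let _ : Algebra ℤ_[p] 𝒪 := ι.toAlgebra
  let _ : Algebra ℤ_[p] T := ((algebraMap 𝒪 T).comp ι).toAlgebra
  have : IsScalarTower ℤ_[p] 𝒪 T := IsScalarTower.of_algebraMap_eq (fun _ => rfl)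
  have : Module.Finite ℤ_[p] 𝒪 := Inst.module_finite_padicInt hp𝒪
  have : Module.Finite ℤ_[p] T := Module.Finite.trans 𝒪 T
  have hpT : (p : T) ∈ IsLocalRing.maximalIdeal T := by
    have := map_nonunit (algebraMap 𝒪 T) (p : 𝒪) hp𝒪
    rwa [map_natCast] at this
  have : IsLocalHom (algebraMap ℤ_[p] T) := Inst.isLocalHom_padicInt _ hpT
  have : Finite (IsLocalRing.ResidueField T) := finite_residueField_of_surjective H.residue_surjective
  obtain ⟨C, _, Φ, Ψ, hΦ, hcomm, hX, hcl⟩ := exists_heckeCorr' D (↑S : Set ℕ)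
  let A : AlgDatum ℤ_[p] T := algDatumZp D hM hpS hNS H.π H.ρ H.charpoly_frob H.residual_absIrr
    Φ Ψ hΦ hcomm hX
  intro P hP
  refine exists_line_of_levelGeo' hFD hp2 A rfl P hP
    (fun τ hτ => Inst.hyp_ord A hFD P hP hres τ hτ) (Inst.hyp_nE A hFD) fun K => ?_
  obtain ⟨Q, i1, i2, φ, hfin, htors, hQ, hequiv, hT, hN⟩ := hlev K P hP
  refine ⟨Q, i1, i2, φ, hfin, htors, hQ, hequiv, ?_, hN⟩
  intro s x hx
  let U : AddSubgroup (Fin D.r → ZMod (p ^ K)) := (φ.comp (ModRep.of D.ρ K).toAddMonoidHom).ker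
  have hU : ∀ X ∈ goodT D (↑S : Set ℕ), ∀ x ∈ U,
      (X.map (Int.castRingHom (ZMod (p ^ K)))).mulVec x ∈ U := by
    rintro _ ⟨ℓ, -, -, -, -, rfl⟩ x hx
    exact hT ℓ x hx
  exact stable_alphaHom Φ (goodT D (↑S : Set ℕ)) hcl K U hU s ((ModRep.of D.ρ K).symm x) hx

omit [Fact p.Prime] in
/-- The exact statement S33 with the two extra hypotheses `S19Statement`, `KVNewOrdNeat`. -/
theorem s33_of (hS19 : S19Statement) (hgeo : KVNewOrdNeat)
    [Finite (IsLocalRing.ResidueField 𝒪)] [CharZero 𝒪]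
    (hp : p.Prime) (hp2 : p ≠ 2) (hp𝒪 : (p : 𝒪) ∈ IsLocalRing.maximalIdeal 𝒪)
    (hN : p ∣ N ∧ ¬ p ^ 2 ∣ N) (hNS : ∀ q : ℕ, q.Prime → q ∣ N → q ∈ S)
    (H : CuspForm.HeckeGaloisRepDatum N (↑S : Set ℕ) 𝒪 θ T)
    (hres : (GaloisRepAdic.ofResidualGaloisRep H.ρ.residual).IsOrdinaryAt p) :
    H.ρ.IsOrdinaryAt p := by
  have : Fact p.Prime := ⟨hp⟩
  obtain ⟨M, hM, D, hD⟩ := exists_esDatumAt_ord hS19 hgeo N p hp2 hN
  exact isOrdinaryAt_of_ordLevel Fermat.Agent.Lib.FrobDensity.gal_frobeniusDensity D hM hp2 hD hp𝒪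
    (hNS p hp hN.1) hNS H hres

end Fermat.Agent.S33.Glue
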