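import Fermat.Agent.S33.Contract
import Fermat.Agent.S33.Alg.Main
import Fermat.Agent.S33.FO.Main

/-!
# S33 / Glue / Hyp : the hypothesis bundle `Alg.Hyp` from the geometric contracts (generic form)

`W` a `G_ℚ`-module with a commuting action of a commutative ring `𝕋`, `φ : W → Q` an equivariant map to a finite flat
`G_ℚ`-module killed by `p ^ K`, whose kernel is a `𝕋`-submodule.  `Wnew := ker φ`.

* `mem_aug_iff`  : the `𝕋`-span `Alg.aug` agrees with the additive closure `augG`;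
* `hyp_of_geo`   : `Alg.Hyp` from `CH`, `ord`, `nE` (block INST), `FO.le_augI` (block FO) and (N') (geometric blocks).
-/

set_option autoImplicit false

namespace Fermat.Agent.S33.Glue

open Fermat.Agent.GAL Fermat.Agent.S33.Alg
open Fermat.Agent.S19 (IsFunFlat)

section Generic

variable {𝕋 W : Type} [CommRing 𝕋] [AddCommGroup W] [Module 𝕋 W] [DistribMulAction GQ W]

/-- `augG I C` is stable under `𝕋` when `C` is a submodule. -/
theorem smul_mem_augG (ρ : GQ →* Module.End 𝕋 W) (hρ : ∀ g x, ρ g x = g • x) (I : Subgroup GQ)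
    (C : Submodule 𝕋 W) (a : 𝕋) {y : W} (hy : y ∈ augG I C.toAddSubgroup) :
    a • y ∈ augG I C.toAddSubgroup := by
  induction hy using AddSubgroup.closure_induction with
  | mem y hy =>
    obtain ⟨τ, hτ, z, hz, rfl⟩ := hy
    refine AddSubgroup.subset_closure ⟨τ, hτ, a • z, C.smul_mem a hz, ?_⟩
    rw [smul_sub, ← hρ, ← hρ, map_smul]
  | zero => rw [smul_zero]; exact AddSubgroup.zero_mem _
  | add y z _ _ hy hz => rw [smul_add]; exact AddSubgroup.add_mem _ hy hz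
  | neg y _ hy => rw [smul_neg]; exact AddSubgroup.neg_mem _ hy

/-- The `𝕋`-span `(I - 1) C` is the additive closure. -/
theorem mem_aug_iff (ρ : GQ →* Module.End 𝕋 W) (hρ : ∀ g x, ρ g x = g • x) (I : Subgroup GQ)
    (C : Submodule 𝕋 W) (x : W) : x ∈ aug ρ I C ↔ x ∈ augG I C.toAddSubgroup := by
  constructor
  · intro hx
    induction hx using Submodule.span_induction with
    | mem y hy =>
      obtain ⟨τ, hτ, z, hz, rfl⟩ := hy
      exact AddSubgroup.subset_closure ⟨τ, hτ, z, hz, by rw [hρ]⟩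
    | zero => exact AddSubgroup.zero_mem _
    | add y z _ _ hy hz => exact AddSubgroup.add_mem _ hy hz
    | smul a y _ hy => exact smul_mem_augG ρ hρ I C a hy
  · intro hx
    induction hx using AddSubgroup.closure_induction with
    | mem y hy =>
      obtain ⟨τ, hτ, z, hz, rfl⟩ := hy
      rw [← hρ]
      exact sub_mem_aug ρ hτ hz
    | zero => exact Submodule.zero_mem _
    | add y z _ _ hy hz => exact Submodule.add_mem _ hy hz
    | neg y _ hy => exact Submodule.neg_mem _ hy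

variable {Q : Type} [AddCommGroup Q] [DistribMulAction GQ Q]

/-- `ker φ` as a `𝕋`-submodule. -/
def kerSub (φ : W →+ Q) (hker : ∀ (c : 𝕋) (x : W), φ x = 0 → φ (c • x) = 0) : Submodule 𝕋 W where
  carrier := {x | φ x = 0}
  add_mem' := by
    intro a b ha hb
    show φ (a + b) = 0
    rw [map_add, show φ a = 0 from ha, show φ b = 0 from hb, add_zero]
  zero_mem' := map_zero φ
  smul_mem' := fun c x hx => hker c x hx

omit [DistribMulAction GQ W] [DistribMulAction GQ Q] in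
theorem mem_kerSub {φ : W →+ Q} {hker : ∀ (c : 𝕋) (x : W), φ x = 0 → φ (c • x) = 0} {x : W} :
    x ∈ kerSub φ hker ↔ φ x = 0 := Iff.rfl

/-- the image of `(I - 1) C` is `(I - 1) φ(C)`. -/
theorem map_augG (I : Subgroup GQ) (φ : W →+ Q) (hφ : ∀ (σ : GQ) (x : W), φ (σ • x) = σ • φ x)
    (C : AddSubgroup W) : (augG I C).map φ = augG I (C.map φ) := by
  apply le_antisymm
  · rw [AddSubgroup.map_le_iff_le_comap, augG, AddSubgroup.closure_le]
    rintro _ ⟨τ, hτ, x, hx, rfl⟩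
    show φ (τ • x - x) ∈ augG I (C.map φ)
    rw [map_sub, hφ]
    exact AddSubgroup.subset_closure ⟨τ, hτ, φ x, ⟨x, hx, rfl⟩, rfl⟩
  · rw [augG, AddSubgroup.closure_le]
    rintro _ ⟨τ, hτ, _, ⟨x, hx, rfl⟩, rfl⟩
    exact ⟨τ • x - x, AddSubgroup.subset_closure ⟨τ, hτ, x, hx, rfl⟩, by rw [map_sub, hφ]⟩

theorem augG_mono (I : Subgroup GQ) {C C' : AddSubgroup Q} (h : C ≤ C') : augG I C ≤ augG I C' := by
  rw [augG, AddSubgroup.closure_le]
  rintro _ ⟨τ, hτ, x, hx, rfl⟩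
  exact AddSubgroup.subset_closure ⟨τ, hτ, x, h hx, rfl⟩

/-- **The bundle `Alg.Hyp`.** -/
theorem hyp_of_geo {p : ℕ} (hp : p.Prime) (hp2 : p ≠ 2)
    {P : ValuationSubring (AlgebraicClosure ℚ)} (hP : P.LiesOverPrime p)
    (𝔪 : Ideal 𝕋) (ρ : GQ →* Module.End 𝕋 W) (hρ : ∀ g x, ρ g x = g • x)
    (ε : GQ →* 𝕋) (t : GQ → 𝕋) (τ0 : GQ)
    (hCH : ∀ (g : GQ) (x : W), ρ g x + ε g • ρ g⁻¹ x = t g • x)
    (hord : ∀ τ ∈ P.inertiaSubgroupIn ℚ, t τ - 1 - ε τ ∈ 𝔪)
    (hτ0 : τ0 ∈ P.inertiaSubgroupIn ℚ) (hne : ε τ0 - 1 ∉ 𝔪)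
    (hnE : ∀ ψ : GQ →* 𝕋 ⧸ 𝔪,
      ∃ g, Ideal.Quotient.mk 𝔪 (t g) ≠ ψ g + Ideal.Quotient.mk 𝔪 (ε g) * ψ g⁻¹)
    [Finite Q] (K : ℕ) (hQK : ∀ y : Q, p ^ K • y = 0) (hQ : IsFunFlat p Q)
    (φ : W →+ Q) (hφ : ∀ (σ : GQ) (x : W), φ (σ • x) = σ • φ x)
    (hker : ∀ (c : 𝕋) (x : W), φ x = 0 → φ (c • x) = 0)
    (hN : ∀ x : W, φ x = 0 → x ∈ augG (P.inertiaSubgroupIn ℚ) (⊤ : AddSubgroup W) →
      ∀ τ ∈ P.inertiaSubgroupIn ℚ, τ • x = ε τ • x) :
    Hyp 𝔪 ρ (P.inertiaSubgroupIn ℚ) ε t τ0 (kerSub φ hker) where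
  CH := hCH
  ord := hord
  mem0 := hτ0
  ne0 := hne
  nE := hnE
  new := by
    intro g _ x hx
    rw [mem_kerSub] at hx ⊢
    rw [hρ, hφ, hx, smul_zero]
  N := by
    intro x hx hxa τ hτ
    rw [hρ]
    refine hN x hx ?_ τ hτ
    have := (mem_aug_iff ρ hρ _ ⊤ x).1 hxa
    exact this
  FO := by
    intro C hC hCle x hx
    set I := P.inertiaSubgroupIn ℚ with hI
    -- the image of `C`
    have h1 : ∀ τ ∈ I, ∀ y ∈ C.toAddSubgroup.map φ, τ • y ∈ C.toAddSubgroup.map φ := by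
      rintro τ hτ _ ⟨z, hz, rfl⟩
      exact ⟨τ • z, by rw [← hρ]; exact hC τ hτ z hz, hφ τ z⟩
    have h2 : C.toAddSubgroup.map φ ≤ augG I (⊤ : AddSubgroup Q) := by
      rintro _ ⟨z, hz, rfl⟩
      obtain ⟨a, ha, b, hb, rfl⟩ := Submodule.mem_sup.1 (hCle hz)
      rw [map_add, show φ b = 0 from hb, add_zero]
      have ha' : a ∈ augG I (⊤ : AddSubgroup W) := (mem_aug_iff ρ hρ _ ⊤ a).1 ha
      have : φ a ∈ (augG I (⊤ : AddSubgroup W)).map φ := ⟨a, ha', rfl⟩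
      rw [map_augG I φ hφ] at this
      exact augG_mono I le_top this
    have h3 := FO.le_augI hp hp2 hP hQ K hQK (C.toAddSubgroup.map φ) h1 h2
    have h4 : φ x ∈ augG I (C.toAddSubgroup.map φ) := h3 ⟨x, hx, rfl⟩
    rw [← map_augG I φ hφ] at h4
    obtain ⟨y, hy, hyx⟩ := h4
    have hy' : y ∈ aug ρ I C := (mem_aug_iff ρ hρ _ C y).2 hy
    have hxy : x - y ∈ kerSub φ hker := by
      rw [mem_kerSub, map_sub, hyx, sub_self]
    have : x = y + (x - y) := by abel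
    rw [this]
    exact Submodule.add_mem_sup hy' hxy

end Generic

end Fermat.Agent.S33.Glue
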