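import Fermat.Agent.S33.Glue.Hyp
import Fermat.Agent.S33.Alg.Transfer
import Fermat.Agent.S33.Alg.HeckeCorr
import Fermat.Agent.S33.FO.Zeta
import Fermat.Agent.GAL.ALG.Cyclo

/-!
# S33 / Glue / Level : the finite level algebra for a generic `A : AlgDatum ℤ_[p] T`

`𝕋 = A.HT = ℤ_p ⊗ C` acts on `W_K = ModRep A.AO K = (ℤ/p^K)^r`; `rhoK`, `mK`, `epsK`, `tK`; the bundle `Alg.Hyp`;
`alg_main` gives the hypothesis of `Alg.exists_line_Zp`.
-/

set_option autoImplicit false

namespace Fermat.Agent.S33.Glue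

open Fermat.Agent.GAL Fermat.Agent.S32 Fermat.Agent.S33.Alg
open Fermat.Agent.S19 (IsFunFlat)
open scoped TensorProduct

variable {p : ℕ} [Fact p.Prime] {T : Type} [CommRing T] [IsLocalRing T] [Algebra ℤ_[p] T]
  (A : AlgDatum ℤ_[p] T) (K : ℕ)

/-- The matrix of `e ∈ ℤ_p ⊗ C` modulo `p ^ K`. -/
noncomputable def matK : A.HT →+* Matrix (Fin A.r) (Fin A.r) (ZMod (p ^ K)) :=
  (PadicInt.toZModPow K).mapMatrix.comp (alphaHom ℤ_[p] A.Φ : A.HT →+* Matrix (Fin A.r) (Fin A.r) ℤ_[p])

theorem matK_apply (e : A.HT) :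
    matK A K e = (PadicInt.toZModPow K).mapMatrix (alphaHom ℤ_[p] A.Φ e) := rfl

noncomputable instance instModuleHT : Module A.HT (ModRep A.AO K) where
  smul e x := ModRep.of A.AO K ((matK A K e).mulVec ((ModRep.of A.AO K).symm x))
  one_smul x := by
    have h : (matK A K 1).mulVec ((ModRep.of A.AO K).symm x) = (ModRep.of A.AO K).symm x := by
      rw [map_one, Matrix.one_mulVec]
    exact h
  mul_smul e f x := by
    have h : (matK A K (e * f)).mulVec ((ModRep.of A.AO K).symm x) =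
        (matK A K e).mulVec ((matK A K f).mulVec ((ModRep.of A.AO K).symm x)) := by
      rw [map_mul, Matrix.mulVec_mulVec]
    exact h
  smul_zero e := Matrix.mulVec_zero (matK A K e)
  smul_add e x y := Matrix.mulVec_add (matK A K e) ((ModRep.of A.AO K).symm x) ((ModRep.of A.AO K).symm y)
  add_smul e f x := by
    have h : (matK A K (e + f)).mulVec ((ModRep.of A.AO K).symm x) =
        (matK A K e).mulVec ((ModRep.of A.AO K).symm x) + (matK A K f).mulVec ((ModRep.of A.AO K).symm x) := by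
      rw [map_add, Matrix.add_mulVec]
    exact h
  zero_smul x := by
    have h : (matK A K 0).mulVec ((ModRep.of A.AO K).symm x) = 0 := by
      rw [map_zero, Matrix.zero_mulVec]
    exact h

theorem HT_smul_of (e : A.HT) (x : Fin A.r → ZMod (p ^ K)) :
    e • ModRep.of A.AO K x = ModRep.of A.AO K ((matK A K e).mulVec x) := rfl

theorem matK_comm (e : A.HT) (g : GQ) :
    matK A K e * (PadicInt.toZModPow K).mapMatrix (A.AO g) =
      (PadicInt.toZModPow K).mapMatrix (A.AO g) * matK A K e := by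
  rw [matK_apply, ← map_mul, ← map_mul, alphaHom_comm A.Φ (A.AO g) (fun c => A.AO_comm c g) e]

theorem smul_HT_smul (g : GQ) (e : A.HT) (x : ModRep A.AO K) : g • (e • x) = e • (g • x) := by
  obtain ⟨x, rfl⟩ := (ModRep.of A.AO K).surjective x
  rw [HT_smul_of, ModRep.smul_of, ModRep.smul_of, HT_smul_of, Matrix.mulVec_mulVec,
    Matrix.mulVec_mulVec, matK_comm]

/-- The action of `G_ℚ` by `𝕋`-linear maps. -/
noncomputable def rhoK : GQ →* Module.End A.HT (ModRep A.AO K) where
  toFun g :=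
    { toFun := fun x => g • x
      map_add' := smul_add g
      map_smul' := fun e x => smul_HT_smul A K g e x }
  map_one' := by
    ext x
    exact one_smul GQ x
  map_mul' g h := by
    ext x
    exact mul_smul g h x

theorem rhoK_apply (g : GQ) (x : ModRep A.AO K) : rhoK A K g x = g • x := rfl

/-- `𝕋 → T → T / 𝔪_T`. -/
noncomputable def resHT : A.HT →+* IsLocalRing.ResidueField T :=
  (IsLocalRing.residue T).comp (piHom ℤ_[p] A.ψ : A.HT →+* T)

/-- The maximal ideal of `𝕋`. -/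
noncomputable def mK : Ideal A.HT := RingHom.ker (resHT A)

theorem mem_mK_iff (e : A.HT) : e ∈ mK A ↔ piHom ℤ_[p] A.ψ e ∈ IsLocalRing.maximalIdeal T := by
  rw [mK, RingHom.mem_ker, resHT, RingHom.comp_apply, IsLocalRing.residue_eq_zero_iff]
  rfl

instance mK_isMaximal [Finite (IsLocalRing.ResidueField T)] : (mK A).IsMaximal := by
  apply Ideal.Quotient.maximal_of_isField
  have e := RingHom.quotientKerEquivRange (resHT A)
  have : Finite (resHT A).range := inferInstance
  have h : IsField (resHT A).range := Finite.isField_of_domain _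
  exact e.toMulEquiv.isField h

/-- The cyclotomic character with values in `𝕋`. -/
noncomputable def epsK : GQ →* A.HT :=
  ((algebraMap ℤ_[p] A.HT : ℤ_[p] →* A.HT).comp (Units.coeHom ℤ_[p])).comp A.ε

theorem epsK_apply (g : GQ) : epsK A g = algebraMap ℤ_[p] A.HT ((A.ε g : ℤ_[p]ˣ) : ℤ_[p]) := rfl

theorem matK_algebraMap (a : ℤ_[p]) :
    matK A K (algebraMap ℤ_[p] A.HT a) = PadicInt.toZModPow K a • 1 := by
  rw [matK_apply, (alphaHom ℤ_[p] A.Φ).commutes a, Algebra.algebraMap_eq_smul_one]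
  ext i j
  by_cases hij : i = j
  · subst hij; simp
  · simp [hij]

theorem algebraMap_smul_eq (a : ℤ_[p]) (x : ModRep A.AO K) :
    algebraMap ℤ_[p] A.HT a • x = (PadicInt.toZModPow K a).val • x := by
  obtain ⟨x, rfl⟩ := (ModRep.of A.AO K).surjective x
  have : NeZero (p ^ K) := ⟨pow_ne_zero K (Fact.out : p.Prime).ne_zero⟩
  rw [HT_smul_of, matK_algebraMap, Matrix.smul_mulVec, Matrix.one_mulVec, ← map_nsmul]
  congr 1
  conv_lhs => rw [← ZMod.natCast_zmod_val (PadicInt.toZModPow K a)]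
  rw [Nat.cast_smul_eq_nsmul]

section Trace

variable (hFD : FrobeniusDensity) [Module.Finite ℤ_[p] T] [IsLocalHom (algebraMap ℤ_[p] T)]

/-- The trace elements. -/
noncomputable def tK (g : GQ) : A.HT := (A.exists_trace_rel hFD g).choose

theorem alphaHom_tK (g : GQ) :
    alphaHom ℤ_[p] A.Φ (tK A hFD g) = A.AO g + ((A.ε g : ℤ_[p]ˣ) : ℤ_[p]) • A.AO g⁻¹ :=
  (A.exists_trace_rel hFD g).choose_spec.1

theorem piHom_tK (g : GQ) :
    piHom ℤ_[p] A.ψ (tK A hFD g) = LinearMap.trace T A.ρ.V (A.ρ.ρ g) :=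
  (A.exists_trace_rel hFD g).choose_spec.2

theorem CH_K (g : GQ) (x : ModRep A.AO K) :
    rhoK A K g x + epsK A g • rhoK A K g⁻¹ x = tK A hFD g • x := by
  have h1 : matK A K (tK A hFD g) = (PadicInt.toZModPow K).mapMatrix (A.AO g) +
      matK A K (epsK A g) * (PadicInt.toZModPow K).mapMatrix (A.AO g⁻¹) := by
    rw [matK_apply, alphaHom_tK, map_add, epsK_apply, matK_algebraMap, smul_mul_assoc, one_mul]
    congr 1
    ext i j
    simp
  obtain ⟨x, rfl⟩ := (ModRep.of A.AO K).surjective x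
  rw [rhoK_apply, rhoK_apply, ModRep.smul_of, ModRep.smul_of, HT_smul_of, HT_smul_of, ← map_add, h1,
    Matrix.add_mulVec, Matrix.mulVec_mulVec]

end Trace

end Fermat.Agent.S33.Glue
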