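import Fermat.Agent.S33.Glue.Level

/-!
# S33 / Glue / Line : the ordinary line for a generic `A : AlgDatum ℤ_[p] T` from the finite level geometric data

`LevelGeo A K P` : the geometric data at level `K` (flat quotient `φ : W_K → Q`, `ker φ` a `𝕋`-submodule, (N') on
`ker φ ∩ (I - 1) W_K`).  `exists_line_of_levelGeo` : `hyp_of_geo` + `alg_main` + `exists_line_Zp`.
-/

set_option autoImplicit false

namespace Fermat.Agent.S33.Glue

open Fermat.Agent.GAL Fermat.Agent.S32 Fermat.Agent.S33.Alg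
open Fermat.Agent.S19 (IsFunFlat)
open scoped TensorProduct

variable {p : ℕ} [Fact p.Prime] {T : Type} [CommRing T] [IsLocalRing T] [Algebra ℤ_[p] T]

/-- The geometric data at level `K`. -/
def LevelGeo (A : AlgDatum ℤ_[p] T) (K : ℕ) (P : ValuationSubring (AlgebraicClosure ℚ)) : Prop :=
  ∃ (Q : Type) (_ : AddCommGroup Q) (_ : DistribMulAction GQ Q) (φ : ModRep A.AO K →+ Q),
    Finite Q ∧ (∀ y : Q, p ^ K • y = 0) ∧ IsFunFlat p Q ∧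
    (∀ (σ : GQ) (x : ModRep A.AO K), φ (σ • x) = σ • φ x) ∧
    (∀ (e : A.HT) (x : ModRep A.AO K), φ x = 0 → φ (e • x) = 0) ∧
    (∀ x : ModRep A.AO K, φ x = 0 →
      x ∈ augG (P.inertiaSubgroupIn ℚ) (⊤ : AddSubgroup (ModRep A.AO K)) →
      ∀ τ ∈ P.inertiaSubgroupIn ℚ, ∀ a : ℕ,
        (∀ μ : AlgebraicClosure ℚ, μ ^ p ^ K = 1 → τ μ = μ ^ a) → τ • x = a • x)

theorem piHom_epsK (A : AlgDatum ℤ_[p] T) (g : GQ) :
    piHom ℤ_[p] A.ψ (epsK A g) = algebraMap ℤ_[p] T ((A.ε g : ℤ_[p]ˣ) : ℤ_[p]) :=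
  (piHom ℤ_[p] A.ψ).commutes _

theorem epsK_smul_of (A : AlgDatum ℤ_[p] T) (K : ℕ) (g : GQ) (x : Fin A.r → ZMod (p ^ K)) :
    epsK A g • ModRep.of A.AO K x =
      ModRep.of A.AO K (PadicInt.toZModPow K ((A.ε g : ℤ_[p]ˣ) : ℤ_[p]) • x) := by
  rw [HT_smul_of, epsK_apply, matK_algebraMap, Matrix.smul_mulVec, Matrix.one_mulVec]

omit [IsLocalRing T] in
/-- An element of inertia moving `ζ_p` has `ε - 1` a unit. -/
theorem isUnit_eps_sub_one {τ0 : GQ} {ζ : AlgebraicClosure ℚ}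
    (hζ : IsPrimitiveRoot ζ p) (h : τ0 ζ ≠ ζ) :
    IsUnit (algebraMap ℤ_[p] T ((cyclo p τ0 : ℤ_[p]ˣ) : ℤ_[p]) - 1) := by
  have hp : p.Prime := Fact.out
  suffices hu : IsUnit (((cyclo p τ0 : ℤ_[p]ˣ) : ℤ_[p]) - 1) by
    have := hu.map (algebraMap ℤ_[p] T)
    rwa [map_sub, map_one] at this
  by_contra hu
  have h1 : ((cyclo p τ0 : ℤ_[p]ˣ) : ℤ_[p]) - 1 ∈ IsLocalRing.maximalIdeal ℤ_[p] := hu
  rw [PadicInt.maximalIdeal_eq_span_p, ← pow_one (p : ℤ_[p]), ← PadicInt.ker_toZModPow,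
    RingHom.mem_ker, map_sub, map_one, sub_eq_zero] at h1
  have h2 := cyclo_spec p τ0 1 ζ (by rw [pow_one]; exact hζ.pow_eq_one)
  rw [h1] at h2
  have : Fact (1 < p ^ 1) := ⟨by rw [pow_one]; exact hp.one_lt⟩
  rw [ZMod.val_one, pow_one] at h2
  exact h h2

/-- The ordinary line, hypotheses `ord`, `nE` in the Hecke algebra form. -/
theorem exists_line_of_levelGeo' (hFD : FrobeniusDensity) (hp2 : p ≠ 2)
    [Finite (IsLocalRing.ResidueField T)] [Module.Finite ℤ_[p] T] [IsLocalHom (algebraMap ℤ_[p] T)]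
    (A : AlgDatum ℤ_[p] T) (hε : A.ε = cyclo p)
    (P : ValuationSubring (AlgebraicClosure ℚ)) (hP : P.LiesOverPrime p)
    (hord : ∀ τ ∈ P.inertiaSubgroupIn ℚ, tK A hFD τ - 1 - epsK A τ ∈ mK A)
    (hnE : ∀ ψ : GQ →* A.HT ⧸ mK A, ∃ g, Ideal.Quotient.mk (mK A) (tK A hFD g) ≠
        ψ g + Ideal.Quotient.mk (mK A) (epsK A g) * ψ g⁻¹)
    (hlev : ∀ K : ℕ, LevelGeo A K P) :
    ∃ L : Submodule T A.ρ.V,
      (∃ b : Module.Basis (Fin 2) T A.ρ.V, L = T ∙ b 0) ∧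
      (∀ σ ∈ P.decompositionSubgroup ℚ, ∀ v ∈ L, A.ρ.ρ σ v ∈ L) ∧
      (∀ σ ∈ P.inertiaSubgroupIn ℚ, ∀ v : A.ρ.V, A.ρ.ρ σ v - v ∈ L) := by
  have hp : p.Prime := Fact.out
  have : NeZero (p : AlgebraicClosure ℚ) := ⟨Nat.cast_ne_zero.mpr hp.ne_zero⟩
  have : NeZero p := ⟨hp.ne_zero⟩
  obtain ⟨ζ, hζ⟩ := HasEnoughRootsOfUnity.exists_primitiveRoot (AlgebraicClosure ℚ) p
  obtain ⟨τ0, hτ0, hmove⟩ := FO.exists_moves hp P hP hp2 hζ
  have hc1 : IsUnit (algebraMap ℤ_[p] T ((A.ε τ0 : ℤ_[p]ˣ) : ℤ_[p]) - 1) := by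
    rw [hε]
    exact isUnit_eps_sub_one hζ hmove
  refine exists_line_Zp hFD A P τ0 hτ0 hc1 fun τ hτ K => ?_
  obtain ⟨Q, _, _, φ, hQfin, hQK, hQ, hφ, hker, hN⟩ := hlev K
  have H := hyp_of_geo hp hp2 hP (mK A) (rhoK A K) (rhoK_apply A K) (epsK A) (tK A hFD) τ0
    (CH_K A K hFD) hord hτ0
    (by
      rw [mem_mK_iff, map_sub, map_one, piHom_epsK]
      intro hmem
      exact hmem hc1)
    hnE K hQK hQ φ hφ hker
    (by
      intro x hx hxa σ hσ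
      rw [epsK_apply, algebraMap_smul_eq]
      refine hN x hx hxa σ hσ _ fun μ hμ => ?_
      rw [hε]
      exact cyclo_spec p σ K μ hμ)
  obtain ⟨e, he, hrel⟩ := alg_main H
  refine ⟨e, fun h => he ((mem_mK_iff A e).2 h), fun x => ?_⟩
  have h1 := hrel τ0 hτ0 (rhoK A K τ (ModRep.of A.AO K x) - ModRep.of A.AO K x)
    (sub_mem_aug _ hτ Submodule.mem_top)
  rw [rhoK_apply, rhoK_apply, ModRep.smul_of, ← map_sub, ModRep.smul_of, epsK_smul_of, ← map_sub,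
    HT_smul_of] at h1
  exact h1

/-- The ordinary line, hypotheses `ord`, `nE` in terms of traces. -/
theorem exists_line_of_levelGeo (hFD : FrobeniusDensity) (hp2 : p ≠ 2)
    [Finite (IsLocalRing.ResidueField T)] [Module.Finite ℤ_[p] T] [IsLocalHom (algebraMap ℤ_[p] T)]
    (A : AlgDatum ℤ_[p] T) (hε : A.ε = cyclo p)
    (P : ValuationSubring (AlgebraicClosure ℚ)) (hP : P.LiesOverPrime p)
    (hord : ∀ τ ∈ P.inertiaSubgroupIn ℚ, LinearMap.trace T A.ρ.V (A.ρ.ρ τ) - 1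
      - algebraMap ℤ_[p] T ((A.ε τ : ℤ_[p]ˣ) : ℤ_[p]) ∈ IsLocalRing.maximalIdeal T)
    (hnE : ∀ ψ : GQ →* IsLocalRing.ResidueField T, ∃ g,
      IsLocalRing.residue T (LinearMap.trace T A.ρ.V (A.ρ.ρ g)) ≠
        ψ g + IsLocalRing.residue T (algebraMap ℤ_[p] T ((A.ε g : ℤ_[p]ˣ) : ℤ_[p])) * ψ g⁻¹)
    (hlev : ∀ K : ℕ, LevelGeo A K P) :
    ∃ L : Submodule T A.ρ.V,
      (∃ b : Module.Basis (Fin 2) T A.ρ.V, L = T ∙ b 0) ∧
      (∀ σ ∈ P.decompositionSubgroup ℚ, ∀ v ∈ L, A.ρ.ρ σ v ∈ L) ∧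
      (∀ σ ∈ P.inertiaSubgroupIn ℚ, ∀ v : A.ρ.V, A.ρ.ρ σ v - v ∈ L) := by
  refine exists_line_of_levelGeo' hFD hp2 A hε P hP ?_ ?_ hlev
  · intro σ hσ
    rw [mem_mK_iff, map_sub, map_sub, map_one, piHom_tK, piHom_epsK]
    exact hord σ hσ
  · intro ψ
    let j : A.HT ⧸ mK A →+* IsLocalRing.ResidueField T := RingHom.kerLift (resHT A)
    have hj : ∀ e : A.HT, j (Ideal.Quotient.mk (mK A) e) =
        IsLocalRing.residue T (piHom ℤ_[p] A.ψ e) := fun e => RingHom.kerLift_mk (resHT A) e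
    obtain ⟨g, hg⟩ := hnE ((j : A.HT ⧸ mK A →* IsLocalRing.ResidueField T).comp ψ)
    refine ⟨g, fun h => hg ?_⟩
    have h2 := congrArg j h
    rw [map_add, map_mul, hj, hj, piHom_tK, piHom_epsK] at h2
    exact h2

end Fermat.Agent.S33.Glue
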